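import Mathlib.LinearAlgebra.Matrix.Block
import Mathlib.NumberTheory.Divisors
import Mathlib.Data.Nat.Totient
import Mathlib.Tactic

/-!
# Smith's determinant

The matrix `(F (gcd (i, j)))`, with `F n` the sum of `f` over the divisors of `n`, factors as
`A D Aᵀ` with `A` the unitriangular divisibility matrix and `D` the diagonal of values of `f`.
-/

set_option autoImplicit false

open Finset Matrix

namespace FA.SmithDeterminant

variable {R : Type*} [CommRing R] {n : ℕ}

/-- The divisibility matrix. -/
def divMatrix (R : Type*) [CommRing R] (n : ℕ) : Matrix (Fin n) (Fin n) R :=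
  Matrix.of fun i d => if (d : ℕ) + 1 ∣ (i : ℕ) + 1 then 1 else 0

theorem det_divMatrix : (divMatrix R n).det = 1 := by
  rw [det_of_isLowerTriangular]
  · exact prod_eq_one fun i _ => if_pos dvd_rfl
  · intro i j hij
    refine if_neg fun h => ?_
    have h1 : i < j := hij
    have h2 := Nat.le_of_dvd (by omega) h
    omega

theorem factor (f : ℕ → R) :
    (Matrix.of fun i j : Fin n => ∑ d ∈ (Nat.gcd (i + 1) (j + 1)).divisors, f d) =
      divMatrix R n * diagonal (fun i : Fin n => f (i + 1)) * (divMatrix R n)ᵀ := by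
  ext i j
  have hg : 0 < Nat.gcd (i + 1) (j + 1) := Nat.gcd_pos_of_pos_left _ (by omega)
  have hgn : Nat.gcd (i + 1) (j + 1) ≤ n :=
    (Nat.le_of_dvd (by omega) (Nat.gcd_dvd_left _ _)).trans i.2
  rw [mul_apply, Matrix.of_apply]
  simp only [mul_diagonal, transpose_apply, divMatrix, Matrix.of_apply, ite_mul, mul_ite, one_mul,
    zero_mul, mul_one, mul_zero, ← ite_and, ← Nat.dvd_gcd_iff]
  rw [← sum_filter]
  refine sum_bij' (fun d hd => (⟨d - 1, ?_⟩ : Fin n)) (fun k _ => (k : ℕ) + 1) ?_ ?_ ?_ ?_ ?_
  · have := Nat.divisor_le hd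
    have := Nat.pos_of_mem_divisors hd
    omega
  · intro d hd
    have := Nat.pos_of_mem_divisors hd
    simp only [mem_filter, mem_univ, true_and, show d - 1 + 1 = d by omega]
    rw [Nat.gcd_comm]
    exact Nat.dvd_of_mem_divisors hd
  · intro k hk
    rw [Nat.mem_divisors, Nat.gcd_comm]
    exact ⟨(mem_filter.1 hk).2, by rw [Nat.gcd_comm]; omega⟩
  · intro d hd
    have := Nat.pos_of_mem_divisors hd
    simp only
    omega
  · intro k _
    ext
    simp
  · intro d hd
    have := Nat.pos_of_mem_divisors hd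
    simp only [show d - 1 + 1 = d by omega]

theorem det_gcd (f : ℕ → R) :
    (Matrix.of fun i j : Fin n => ∑ d ∈ (Nat.gcd (i + 1) (j + 1)).divisors, f d).det =
      ∏ i : Fin n, f (i + 1) := by
  rw [factor, det_mul, det_mul, det_transpose, det_divMatrix, det_diagonal, one_mul, mul_one]

theorem det_gcd_totient :
    (Matrix.of fun i j : Fin n => (Nat.gcd (i + 1) (j + 1) : ℤ)).det =
      ∏ i : Fin n, (Nat.totient (i + 1) : ℤ) := by
  rw [← det_gcd (fun d => (Nat.totient d : ℤ))]
  congr 1
  ext i j
  simp only [Matrix.of_apply]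
  rw [← Nat.cast_sum, Nat.sum_totient]

end FA.SmithDeterminant
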