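import Mathlib.Data.Nat.Fib.Basic
import Mathlib.Data.Set.Card
import Mathlib.Data.Rat.Lemmas
import Mathlib.Algebra.Order.BigOperators.Group.Multiset
import Mathlib.Tactic

/-!
# Stern's diatomic sequence

Consecutive values are the pairs of the Calkin–Wilf tree, the values count hyperbinary
representations, and their maximum over a dyadic block is a Fibonacci number.
-/

set_option autoImplicit false

namespace FA.SternSequence

/-- Stern's recursion. -/
structure IsStern (s : ℕ → ℕ) : Prop where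
  zero : s 0 = 0
  one : s 1 = 1
  bit0 : ∀ n, s (2 * n) = s n
  bit1 : ∀ n, s (2 * n + 1) = s n + s (n + 1)

/-- Stern's sequence. -/
def stern : ℕ → ℕ
  | 0 => 0
  | 1 => 1
  | n + 2 => if n % 2 = 0 then stern (n / 2 + 1) else stern (n / 2 + 1) + stern (n / 2 + 2)
termination_by n => n
decreasing_by all_goals omega

theorem isStern_stern : IsStern stern := by
  refine ⟨by rw [stern], by rw [stern], fun n => ?_, fun n => ?_⟩
  · rcases n with _ | n
    · rfl
    · rw [show 2 * (n + 1) = 2 * n + 2 by ring, stern, if_pos (by omega),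
        show 2 * n / 2 = n by omega]
  · rcases n with _ | n
    · simp [stern]
    · rw [show 2 * (n + 1) + 1 = 2 * n + 1 + 2 by ring, stern, if_neg (by omega),
        show (2 * n + 1) / 2 = n by omega]

variable {s : ℕ → ℕ} (hs : IsStern s)

include hs

theorem unique {t : ℕ → ℕ} (ht : IsStern t) : s = t := by
  funext n
  induction n using Nat.strong_induction_on with
  | _ n ih =>
    rcases Nat.even_or_odd' n with ⟨k, rfl | rfl⟩ <;> rcases Nat.eq_zero_or_pos k with rfl | hk
    · rw [Nat.mul_zero, hs.zero, ht.zero]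
    · rw [hs.bit0, ht.bit0, ih k (by omega)]
    · rw [Nat.mul_zero, Nat.zero_add, hs.one, ht.one]
    · rw [hs.bit1, ht.bit1, ih k (by omega), ih (k + 1) (by omega)]

theorem pos {n : ℕ} (hn : 0 < n) : 0 < s n := by
  induction n using Nat.strong_induction_on with
  | _ n ih =>
    rcases Nat.even_or_odd' n with ⟨k, rfl | rfl⟩
    · rw [hs.bit0]
      exact ih k (by omega) (by omega)
    · rcases Nat.eq_zero_or_pos k with rfl | hk
      · simp [hs.one]
      · rw [hs.bit1]
        have := ih k (by omega) hk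
        omega

theorem succ_two_mul (n : ℕ) : s (2 * n + 1 + 1) = s (n + 1) := by
  rw [show 2 * n + 1 + 1 = 2 * (n + 1) by ring, hs.bit0]

theorem coprime (n : ℕ) : (s n).Coprime (s (n + 1)) := by
  induction n using Nat.strong_induction_on with
  | _ n ih =>
    rcases Nat.eq_zero_or_pos n with rfl | hn
    · simp [hs.zero, hs.one]
    rcases Nat.even_or_odd' n with ⟨k, rfl | rfl⟩
    · rw [hs.bit0, hs.bit1, Nat.coprime_self_add_right]
      exact ih k (by omega)
    · rw [hs.bit1, succ_two_mul hs, Nat.coprime_add_self_left]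
      exact ih k (by omega)

theorem pair_injective {n m : ℕ} (hn : 0 < n) (hm : 0 < m) (h1 : s n = s m)
    (h2 : s (n + 1) = s (m + 1)) : n = m := by
  induction n using Nat.strong_induction_on generalizing m with
  | _ n ih =>
    obtain ⟨k, hk⟩ := Nat.even_or_odd' n
    obtain ⟨l, hl⟩ := Nat.even_or_odd' m
    rcases hk with rfl | rfl <;> rcases hl with rfl | rfl
    · rw [hs.bit0, hs.bit0] at h1
      rw [hs.bit1, hs.bit1] at h2
      rw [ih k (by omega) (by omega) (by omega) h1 (by omega)]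
    · rw [hs.bit0, hs.bit1] at h1
      rw [hs.bit1, succ_two_mul hs] at h2
      have := pos hs (show 0 < k + 1 by omega)
      omega
    · rw [hs.bit0, hs.bit1] at h1
      rw [succ_two_mul hs, hs.bit1] at h2
      have := pos hs (show 0 < l + 1 by omega)
      omega
    · rw [hs.bit1, hs.bit1] at h1
      rw [succ_two_mul hs, succ_two_mul hs] at h2
      rcases Nat.eq_zero_or_pos k with rfl | hk0 <;> rcases Nat.eq_zero_or_pos l with rfl | hl0
      · rfl
      · have := pos hs hl0
        rw [hs.zero] at h1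
        omega
      · have := pos hs hk0
        rw [hs.zero] at h1
        omega
      · rw [ih k (by omega) hk0 hl0 (by omega) h2]

theorem pair_surjective {a b : ℕ} (ha : 0 < a) (hb : 0 < b) (h : a.Coprime b) :
    ∃ n, 0 < n ∧ s n = a ∧ s (n + 1) = b := by
  induction hab : a + b using Nat.strong_induction_on generalizing a b with
  | _ t ih =>
    subst hab
    rcases lt_trichotomy a b with hlt | rfl | hlt
    · obtain ⟨c, rfl⟩ : ∃ c, b = a + c := ⟨b - a, by omega⟩
      obtain ⟨n, hn, e1, e2⟩ :=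
        ih (a + c) (by omega) ha (by omega) (Nat.coprime_self_add_right.1 h) rfl
      exact ⟨2 * n, by omega, by rw [hs.bit0, e1], by rw [hs.bit1, e1, e2]⟩
    · have ha1 : a = 1 := (Nat.coprime_self a).1 h
      exact ⟨1, one_pos, by rw [hs.one, ha1], by
        rw [show 1 + 1 = 2 * 1 from rfl, hs.bit0, hs.one, ha1]⟩
    · obtain ⟨c, rfl⟩ : ∃ c, a = c + b := ⟨a - b, by omega⟩
      obtain ⟨n, hn, e1, e2⟩ :=
        ih (c + b) (by omega) (by omega) hb (Nat.coprime_add_self_left.1 h) rfl
      exact ⟨2 * n + 1, by omega, by rw [hs.bit1, e1, e2], by rw [succ_two_mul hs, e2]⟩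

theorem bijOn_ratio :
    Set.BijOn (fun n => (s n : ℚ) / (s (n + 1) : ℚ)) {n | 0 < n} {q | 0 < q} := by
  refine ⟨fun n hn => ?_, fun n hn m hm h => ?_, fun q hq => ?_⟩
  · show (0 : ℚ) < (s n : ℚ) / (s (n + 1) : ℚ)
    exact div_pos (Nat.cast_pos.2 (pos hs hn)) (Nat.cast_pos.2 (pos hs n.succ_pos))
  · simp only at h
    rw [div_eq_div_iff (Nat.cast_ne_zero.2 (pos hs n.succ_pos).ne')
      (Nat.cast_ne_zero.2 (pos hs m.succ_pos).ne')] at h
    have h' : s n * s (m + 1) = s m * s (n + 1) := by exact_mod_cast h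
    have e1 : s n = s m :=
      Nat.dvd_antisymm ((coprime hs n).dvd_of_dvd_mul_right ⟨s (m + 1), h'.symm⟩)
        ((coprime hs m).dvd_of_dvd_mul_right ⟨s (n + 1), h'⟩)
    rw [e1] at h'
    exact pair_injective hs hn hm e1 (Nat.eq_of_mul_eq_mul_left (pos hs hm) h').symm
  · have hq' : 0 < q.num := Rat.num_pos.2 hq
    obtain ⟨n, hn, e1, e2⟩ := pair_surjective hs (a := q.num.natAbs) (b := q.den) (by omega)
      q.den_pos q.reduced
    refine ⟨n, hn, ?_⟩
    simp only
    rw [e1, e2, Nat.cast_natAbs, abs_of_pos hq', Rat.num_div_den]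

omit hs

/-- The hyperbinary representations of `n`. -/
def hyper (n : ℕ) : Set (Multiset ℕ) :=
  {M | (∀ x ∈ M, ∃ i, x = 2 ^ i) ∧ (∀ x, M.count x ≤ 2) ∧ M.sum = n}

/-- Double every part and add `j` ones. -/
def push (j : ℕ) (M : Multiset ℕ) : Multiset ℕ := Multiset.replicate j 1 + M.map (2 * ·)

theorem push_injective (j : ℕ) : Function.Injective (push j) := fun M N h =>
  Multiset.map_injective (fun x y (h : 2 * x = 2 * y) => by omega) (add_left_cancel h)

theorem count_one_push (j : ℕ) (M : Multiset ℕ) : (push j M).count 1 = j := by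
  rw [push, Multiset.count_add, Multiset.count_replicate_self, Multiset.count_eq_zero.2, add_zero]
  intro h
  obtain ⟨x, -, hx⟩ := Multiset.mem_map.1 h
  omega

theorem sum_push (j : ℕ) (M : Multiset ℕ) : (push j M).sum = j + 2 * M.sum := by
  rw [push, Multiset.sum_add, Multiset.sum_replicate, Multiset.sum_map_mul_left,
    Multiset.map_id', smul_eq_mul, mul_one]

theorem push_mem {j n : ℕ} (hj : j ≤ 2) {M : Multiset ℕ} (hM : M ∈ hyper n) :
    push j M ∈ hyper (2 * n + j) := by
  obtain ⟨h1, h2, h3⟩ := hM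
  refine ⟨fun x hx => ?_, fun x => ?_, by rw [sum_push, h3]; ring⟩
  · rcases Multiset.mem_add.1 hx with hx | hx
    · exact ⟨0, Multiset.eq_of_mem_replicate hx⟩
    · obtain ⟨y, hy, rfl⟩ := Multiset.mem_map.1 hx
      obtain ⟨i, rfl⟩ := h1 y hy
      exact ⟨i + 1, (pow_succ' 2 i).symm⟩
  · rcases eq_or_ne x 1 with rfl | hx
    · rwa [count_one_push]
    · rw [push, Multiset.count_add, Multiset.count_replicate, if_neg (Ne.symm hx), zero_add]
      by_cases hmem : x ∈ M.map (2 * ·)
      · obtain ⟨y, -, rfl⟩ := Multiset.mem_map.1 hmem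
        rw [Multiset.count_map_eq_count' _ _ fun a b (h : 2 * a = 2 * b) => by omega]
        exact h2 y
      · rw [Multiset.count_eq_zero.2 hmem]
        omega

theorem exists_push {M : Multiset ℕ} {n : ℕ} (hM : M ∈ hyper n) :
    ∃ N, M = push (M.count 1) N ∧ N ∈ hyper N.sum := by
  obtain ⟨h1, h2, -⟩ := hM
  have e : ((M.filter fun x => ¬x = 1).map (· / 2)).map (2 * ·) = M.filter fun x => ¬x = 1 := by
    rw [Multiset.map_map]
    refine (Multiset.map_congr rfl fun x hx => ?_).trans (Multiset.map_id' _)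
    obtain ⟨hxM, hx1⟩ := Multiset.mem_filter.1 hx
    obtain ⟨i, rfl⟩ := h1 x hxM
    rcases i with _ | i
    · simp at hx1
    · simp [pow_succ']
  refine ⟨(M.filter fun x => ¬x = 1).map (· / 2), ?_, fun x hx => ?_, fun x => ?_, rfl⟩
  · rw [push, e, ← Multiset.filter_eq', Multiset.filter_add_not]
  · obtain ⟨y, hy, rfl⟩ := Multiset.mem_map.1 hx
    obtain ⟨hyM, hy1⟩ := Multiset.mem_filter.1 hy
    obtain ⟨i, rfl⟩ := h1 y hyM
    rcases i with _ | i
    · simp at hy1
    · exact ⟨i, by simp [pow_succ']⟩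
  · rw [← Multiset.count_map_eq_count' (2 * ·) _ (fun a b (h : 2 * a = 2 * b) => by omega) x, e]
    exact (Multiset.count_le_of_le _ (Multiset.filter_le _ _)).trans (h2 _)

theorem hyper_zero : hyper 0 = {0} := by
  ext M
  refine ⟨fun ⟨h1, _, h3⟩ => Multiset.eq_zero_of_forall_notMem fun x hx => ?_, ?_⟩
  · obtain ⟨i, rfl⟩ := h1 x hx
    have := Multiset.le_sum_of_mem hx
    have := Nat.two_pow_pos i
    omega
  · rintro rfl
    exact ⟨by simp, by simp, by simp⟩

theorem hyper_odd (n : ℕ) : hyper (2 * n + 1) = push 1 '' hyper n := by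
  ext M
  refine ⟨fun hM => ?_, ?_⟩
  · obtain ⟨N, hMN, hN⟩ := exists_push hM
    have h3 := hM.2.2
    rw [hMN, sum_push] at h3
    have := hM.2.1 1
    have hj : M.count 1 = 1 := by omega
    rw [hj] at hMN
    exact ⟨N, by rwa [show n = N.sum by omega], hMN.symm⟩
  · rintro ⟨N, hN, rfl⟩
    exact push_mem one_le_two hN

theorem hyper_even (n : ℕ) :
    hyper (2 * n + 2) = push 0 '' hyper (n + 1) ∪ push 2 '' hyper n := by
  ext M
  refine ⟨fun hM => ?_, ?_⟩
  · obtain ⟨N, hMN, hN⟩ := exists_push hM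
    have h3 := hM.2.2
    rw [hMN, sum_push] at h3
    have := hM.2.1 1
    rcases (show M.count 1 = 0 ∨ M.count 1 = 2 by omega) with hj | hj <;> rw [hj] at hMN
    · exact Or.inl ⟨N, by rwa [show n + 1 = N.sum by omega], hMN.symm⟩
    · exact Or.inr ⟨N, by rwa [show n = N.sum by omega], hMN.symm⟩
  · rintro (⟨N, hN, rfl⟩ | ⟨N, hN, rfl⟩)
    · exact push_mem (n := n + 1) (Nat.zero_le 2) hN
    · exact push_mem le_rfl hN

include hs

theorem ncard_hyper (n : ℕ) : (hyper n).Finite ∧ (hyper n).ncard = s (n + 1) := by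
  induction n using Nat.strong_induction_on with
  | _ n ih =>
    rcases Nat.even_or_odd' n with ⟨k, rfl | rfl⟩
    · rcases k with _ | k
      · rw [Nat.mul_zero, hyper_zero, Set.ncard_singleton, hs.one]
        exact ⟨Set.finite_singleton _, rfl⟩
      · obtain ⟨f1, c1⟩ := ih (k + 1) (by omega)
        obtain ⟨f2, c2⟩ := ih k (by omega)
        rw [show 2 * (k + 1) = 2 * k + 2 by ring, hyper_even]
        refine ⟨(f1.image _).union (f2.image _), ?_⟩
        rw [Set.ncard_union_eq ?_ (f1.image _) (f2.image _),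
          Set.ncard_image_of_injective _ (push_injective 0),
          Set.ncard_image_of_injective _ (push_injective 2), c1, c2,
          show 2 * k + 2 + 1 = 2 * (k + 1) + 1 by ring, hs.bit1, add_comm]
        rw [Set.disjoint_left]
        rintro M ⟨A, -, rfl⟩ ⟨B, -, hB⟩
        have := congrArg (Multiset.count 1) hB
        rw [count_one_push, count_one_push] at this
        omega
    · obtain ⟨f, c⟩ := ih k (by omega)
      rw [hyper_odd, Set.ncard_image_of_injective _ (push_injective 1), c, succ_two_mul hs]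
      exact ⟨f.image _, rfl⟩

theorem le_fib (k : ℕ) : (∀ n ≤ 2 ^ k, s n ≤ (k + 1).fib) ∧
    ∀ n < 2 ^ k, s n + s (n + 1) ≤ (k + 2).fib := by
  induction k with
  | zero =>
    constructor <;> intro n hn
    · interval_cases n <;> simp [hs.zero, hs.one]
    · interval_cases n
      simp [hs.zero, hs.one]
  | succ k ih =>
    obtain ⟨hA, hB⟩ := ih
    have hf : (k + 3).fib = (k + 1).fib + (k + 2).fib := Nat.fib_add_two
    have hp : 2 ^ (k + 1) = 2 * 2 ^ k := pow_succ' 2 k
    constructor <;> intro n hn <;> rcases Nat.even_or_odd' n with ⟨m, rfl | rfl⟩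
    · rw [hs.bit0]
      exact (hA m (by omega)).trans Nat.fib_le_fib_succ
    · rw [hs.bit1]
      exact hB m (by omega)
    · rw [hs.bit0, hs.bit1, hf]
      exact add_le_add (hA m (by omega)) (hB m (by omega))
    · rw [hs.bit1, succ_two_mul hs, hf, add_comm]
      exact add_le_add (hA (m + 1) (by omega)) (hB m (by omega))

theorem exists_fib_pair (k : ℕ) : ∃ n, 2 ^ k ≤ n ∧ n < 2 ^ (k + 1) ∧
    ((s n = (k + 1).fib ∧ s (n + 1) = (k + 2).fib) ∨
      (s n = (k + 2).fib ∧ s (n + 1) = (k + 1).fib)) := by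
  induction k with
  | zero =>
    refine ⟨1, le_rfl, by norm_num, Or.inl ⟨hs.one, ?_⟩⟩
    rw [show 1 + 1 = 2 * 1 from rfl, hs.bit0, hs.one]
    rfl
  | succ k ih =>
    obtain ⟨n, hn1, hn2, h⟩ := ih
    have hf : (k + 3).fib = (k + 1).fib + (k + 2).fib := Nat.fib_add_two
    have hp : 2 ^ (k + 1) = 2 * 2 ^ k := pow_succ' 2 k
    have hp' : 2 ^ (k + 1 + 1) = 2 * 2 ^ (k + 1) := pow_succ' 2 (k + 1)
    rcases h with ⟨e1, e2⟩ | ⟨e1, e2⟩
    · refine ⟨2 * n + 1, by omega, by omega, Or.inr ⟨?_, by rw [succ_two_mul hs, e2]⟩⟩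
      rw [hs.bit1, e1, e2, hf]
    · refine ⟨2 * n, by omega, by omega, Or.inl ⟨by rw [hs.bit0, e1], ?_⟩⟩
      rw [hs.bit1, e1, e2, hf, add_comm]

theorem block_max (k : ℕ) :
    IsGreatest (s '' Set.Icc (2 ^ k) (2 ^ (k + 1))) (k + 2).fib := by
  refine ⟨?_, ?_⟩
  · obtain ⟨n, hn1, hn2, ⟨-, e⟩ | ⟨e, -⟩⟩ := exists_fib_pair hs k
    · exact ⟨n + 1, ⟨by omega, hn2⟩, e⟩
    · exact ⟨n, ⟨hn1, hn2.le⟩, e⟩
  · rintro _ ⟨n, hn, rfl⟩
    exact (le_fib hs (k + 1)).1 n hn.2

end FA.SternSequence
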